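/-
Programme T1B (row 38 / S44), cell R2/BRANDT (owner helper36), work package W5 (helper57):
THE INSTANCE.  The generic weighted theorems of `Brandt36/Main.lean`
(`rho_correspondence_W`, `brandtW_one_of_aux`) instantiated at the Prelude objects, in the EXACT shape
of the fields `R, ρ, B, one, B_one, ρ_T` of `Local66.Assembly.LocalGeom` (report 1023):

* char. 0 : `K₀ = ℚ̄`, `F₀ = FF N` (`N = M' p`), `V = gaussVal A (iotaHom N) HD.norm` (the Gauss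
  valuation ring of the expansion at `∞`), `res = Hol80.resK HD.norm M' hrange : V →+* k₁`,
  `C = (algebraMap ℚ̄ (FF N)).fieldRange`, `T_ℓ = heckeOperatorBar N ℓ = α_* β^*`;
* char. `p` : `κ = Kap A`, `k₁ = FullC κ M'`, `k₁' = FullC κ (M' ℓ)`, `ᾱ β̄ = CharPX0.alphaC / betaC`;
* `vE : ι → Place κ k₁` the node places (abstract here; supplied by the cell R1).

Outputs:
* `LevelData κ p N M'` : `M' ∣ N`, `p ∣ N`, `p ∤ M'` + `HasPrincipalDivisors κ (FullC κ (M' ℓ))` (`ℓ ∤ N`);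
* `BG vE L ℓ`  : the Brandt operator `B ℓ` (`brandtW` of `(β̄, ᾱ)` for `ℓ ∤ N`, `0` otherwise);
* `rhoInputs`, `rhoX A p N M' HD hrange vE : Pic0.torsion ℚ̄ (FF N) p →+ (ι → ZMod p)` (= `Brandt36.rho`);
* `rhoX_T`     : `rhoX ⟨heckeOperatorBar N ℓ x, _⟩ = BG vE L ℓ (rhoX ⟨x, _⟩)`      for `ℓ ∤ N`
                 (`rho_T_gen` = the same for abstract `κ`, `V`, `res`);
* `B_one_gen`  : `BG vE L ℓ (fun _ => 1) = ((ℓ : ℕ) + 1 : ℤ) • (fun _ => 1)`      for `ℓ ∤ N`;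
* `hd_of_aux`  : the hypothesis `hd` of `rhoX_T` from the auxiliary function.
Hypotheses kept (owners): `hb14` reduction commutes with the norm (helper14), the auxiliary function
`D` with (i)–(iv) (helper80 / helper79), `HasPrincipalDivisors` (`LevelData.hpd`) and the fundamental
identity `hFI` in characteristic `p` (helper87), `hrange` (helper16), `HD` (helper3 / Gauss95:
`Hecke87.deltaInputs₁'`).
-/
import Mathlib
import Fermat.Agent.T1B.Brandt36.Main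
import Fermat.Agent.T1B.Hecke87.CharPX0
import Fermat.Agent.T1B.Hecke87.HeckeX0
import Fermat.Agent.T1B.Hecke3.DeltaX0
import Fermat.Agent.T1B.Hol80.HolLog
import Fermat.Agent.ES.KRON.KronInst10
import Fermat.Agent.X0.FFConst
import Fermat.Agent.X0.FFPlace

set_option autoImplicit false
set_option linter.unusedSectionVars false
set_option linter.unusedVariables false
set_option linter.style.haveILetI false

noncomputable section

namespace Fermat.Agent.T1B.Brandt57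

open AlgebraicCurve ModularCurve HahnSeries
open Fermat.Agent.X0 Fermat.Agent.T1B.Hecke3 Fermat.Agent.T1B.Hol80 Fermat.Agent.T1B.Brandt36
open Fermat.Agent.ES.HECKE Fermat.Agent.ES.HECKE.PointFormula28
open Fermat.Agent.T1B.Hecke87.CharPX0

/- speed: the canonical `Algebra κ ↥S` instance of an intermediate field, tried first. -/
attribute [local instance 5000] SubalgebraClass.toAlgebra

/-! ### Abstract adapters -/

section Abstract

variable {K₀ F₀ : Type*} [Field K₀] [Field F₀] [Algebra K₀ F₀]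
variable {V : ValuationSubring F₀} {κ k : Type*} [Field κ] [Field k] [Algebra κ k]
  {res : ↥V →+* k} {ι : Type*} {vE : ι → Place κ k} {p : ℕ} {C : Subfield F₀}
variable {F₀' : Type*} [Field F₀'] [Algebra K₀ F₀'] (α₀ β₀ : F₀ →ₐ[K₀] F₀')
variable {k' : Type*} [Field k'] [Algebra κ k'] (αb βb : k →ₐ[κ] k')

/-- **adapter for (b)**: helper14's shape of 'reduction commutes with the norm' gives the hypothesis
`hb` of `Brandt36.rho_correspondence_W`. -/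
theorem hb_of_norm_red (H : RhoInputs (K₀ := K₀) V res vE C)
    (hker : ∀ v : ↥V, ¬ IsUnit v → res v = 0) (hfin : FiniteAlong κ αb)
    (h14 : ∀ u : ↥V, ∃ h : normAlong α₀ (β₀ (u : F₀)) ∈ V,
      res ⟨_, h⟩ = normAlong αb (βb (res u)))
    (u : (↥V)ˣ) :
    lam V res vE p C (normAlong α₀ (β₀ ((u : ↥V) : F₀))) =
      resVec vE p (normAlong αb (βb (res (u : ↥V)))) := by
  obtain ⟨h, hres⟩ := h14 (u : ↥V)
  have hβu : βb (res (u : ↥V)) ≠ 0 := by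
    rw [Ne, map_eq_zero_iff βb βb.toRingHom.injective]
    exact res_units_ne_zero u
  have hne : res ⟨_, h⟩ ≠ 0 := by
    rw [hres]
    exact normAlong_ne_zero' αb hfin hβu
  have hunit : IsUnit (⟨_, h⟩ : ↥V) := by
    by_contra hnu
    exact hne (hker _ hnu)
  have hf : normAlong α₀ (β₀ ((u : ↥V) : F₀)) = 1 * ((hunit.unit : ↥V) : F₀) := by
    rw [one_mul, IsUnit.unit_spec]
  rw [lam_eq H (one_mem C) one_ne_zero hf, IsUnit.unit_spec, hres]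

/-- the norm of a constant along `ψ` is a power of the constant. -/
theorem normAlong_const (φ ψ : F₀ →ₐ[K₀] F₀') (c : K₀) :
    normAlong ψ (φ (algebraMap K₀ F₀ c)) = (algebraMap K₀ F₀ c) ^ finrankAlong K₀ ψ := by
  letI := algebraAlong ψ
  have h1 : φ (algebraMap K₀ F₀ c) = algebraMap F₀ F₀' (algebraMap K₀ F₀ c) := by
    rw [φ.commutes]
    exact (ψ.commutes c).symm
  rw [h1]
  exact Algebra.norm_algebraMap (algebraMap K₀ F₀ c)

/-- **`hC`**: the norm of a constant has `lam = 0`. -/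
theorem hC_of_fieldRange (H : RhoInputs (K₀ := K₀) V res vE C)
    (hC : C = (algebraMap K₀ F₀).fieldRange) (c : F₀) (hc : c ∈ C) (hc0 : c ≠ 0) :
    lam V res vE p C (normAlong α₀ (β₀ c)) = 0 := by
  have hc' : c ∈ (algebraMap K₀ F₀).fieldRange := hC ▸ hc
  obtain ⟨c₀, rfl⟩ := hc'
  rw [normAlong_const]
  exact lam_const H (pow_mem hc _) (pow_ne_zero _ hc0)

end Abstract

/-! ### Arithmetic of the levels -/

section Arith

theorem not_dvd_of_dvd {ℓ N M' : ℕ} (hM'N : M' ∣ N) (hℓN : ¬ ℓ ∣ N) : ¬ ℓ ∣ M' :=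
  fun h => hℓN (h.trans hM'N)

theorem ne_of_dvd_of_not_dvd {ℓ p N : ℕ} (hpN : p ∣ N) (hℓN : ¬ ℓ ∣ N) : p ≠ ℓ := by
  rintro rfl
  exact hℓN hpN

theorem not_dvd_mul_of {p ℓ M' : ℕ} (hp : p.Prime) (hℓ : ℓ.Prime) (hpM' : ¬ p ∣ M')
    (hpℓ : p ≠ ℓ) : ¬ p ∣ M' * ℓ := by
  intro h
  rcases (Nat.Prime.dvd_mul hp).mp h with h | h
  · exact hpM' h
  · exact hpℓ ((Nat.prime_dvd_prime_iff_eq hp hℓ).mp h)

theorem cast_ne_zero_of {κ : Type*} [Field κ] {p ℓ : ℕ} [CharP κ p] (hp : p.Prime) (hℓ : ℓ.Prime)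
    (hpℓ : p ≠ ℓ) : (ℓ : κ) ≠ 0 := by
  intro h0
  rw [CharP.cast_eq_zero_iff κ p] at h0
  exact hpℓ ((Nat.prime_dvd_prime_iff_eq hp hℓ).mp h0)

end Arith

/-! ### The semi-abstract form: `κ` an abstract algebraically closed field of characteristic `p`,
`V ⊂ FF N` an abstract valuation ring with residue map `res : V →+* FullC κ M'` -/

section Generic

variable (κ : Type) [Field κ] [IsAlgClosed κ] (p : ℕ) [Fact p.Prime] [CharP κ p]
  (N M' : ℕ) [NeZero N] [NeZero M']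

/-- The level data: `M' ∣ N`, `p ∣ N`, `p ∤ M'` (in the application `N = M' p`), and principal
divisors in characteristic `p` at the levels `M' ℓ` (helper87). -/
structure LevelData : Prop where
  hM'N : M' ∣ N
  hpN : p ∣ N
  hpM' : ¬ p ∣ M'
  hpd : ∀ ℓ : Nat.Primes, ¬ (ℓ : ℕ) ∣ N →
    HasPrincipalDivisors κ ↥(modularFunctionFieldFullC κ (M' * (ℓ : ℕ)))

variable {κ p N M'}

theorem LevelData.not_dvd (L : LevelData κ p N M') (ℓ : Nat.Primes) (hℓN : ¬ (ℓ : ℕ) ∣ N) :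
    ¬ p ∣ M' * (ℓ : ℕ) :=
  not_dvd_mul_of (Fact.out : p.Prime) ℓ.2 L.hpM' (ne_of_dvd_of_not_dvd L.hpN hℓN)

theorem LevelData.cast_ne_zero (L : LevelData κ p N M') (ℓ : Nat.Primes) (hℓN : ¬ (ℓ : ℕ) ∣ N) :
    ((ℓ : ℕ) : κ) ≠ 0 :=
  cast_ne_zero_of (Fact.out : p.Prime) ℓ.2 (ne_of_dvd_of_not_dvd L.hpN hℓN)

theorem LevelData.integral_alphaC (L : LevelData κ p N M') (ℓ : Nat.Primes)
    (hℓN : ¬ (ℓ : ℕ) ∣ N) :
    haveI : NeZero (ℓ : ℕ) := ⟨ℓ.2.ne_zero⟩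
    (alphaC κ M' (ℓ : ℕ)).toRingHom.IsIntegral :=
  haveI : NeZero (ℓ : ℕ) := ⟨ℓ.2.ne_zero⟩
  isIntegral_alphaC κ p M' (ℓ : ℕ) (L.not_dvd ℓ hℓN)

theorem LevelData.integral_betaC (L : LevelData κ p N M') (ℓ : Nat.Primes)
    (hℓN : ¬ (ℓ : ℕ) ∣ N) :
    haveI : NeZero (ℓ : ℕ) := ⟨ℓ.2.ne_zero⟩
    (betaC κ M' (ℓ : ℕ)).toRingHom.IsIntegral :=
  haveI : NeZero (ℓ : ℕ) := ⟨ℓ.2.ne_zero⟩
  isIntegral_betaC κ p M' (ℓ : ℕ) (L.not_dvd ℓ hℓN) ℓ.2 (L.cast_ne_zero ℓ hℓN)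

variable {ι : Type*} (vE : ι → Place κ ↥(modularFunctionFieldFullC κ M'))

/-- **The Brandt operators** `B ℓ` on `ι → ZMod p`: the ramification-weighted Brandt operator of the
correspondence `(ᾱ, β̄)` of level `M' ℓ` in characteristic `p` for `ℓ ∤ N`, and `0` otherwise. -/
def BG (L : LevelData κ p N M') (ℓ : Nat.Primes) : (ι → ZMod p) →+ (ι → ZMod p) :=
  if h : ¬ (ℓ : ℕ) ∣ N then
    haveI : NeZero (ℓ : ℕ) := ⟨ℓ.2.ne_zero⟩
    haveI := L.hpd ℓ h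
    brandtW vE p (betaC κ M' (ℓ : ℕ)) (alphaC κ M' (ℓ : ℕ))
      (L.integral_betaC ℓ h) (L.integral_alphaC ℓ h)
  else 0

theorem BG_eq (L : LevelData κ p N M') (ℓ : Nat.Primes) (hℓN : ¬ (ℓ : ℕ) ∣ N) :
    haveI : NeZero (ℓ : ℕ) := ⟨ℓ.2.ne_zero⟩
    haveI := L.hpd ℓ hℓN
    BG vE L ℓ = brandtW vE p (betaC κ M' (ℓ : ℕ)) (alphaC κ M' (ℓ : ℕ))
      (L.integral_betaC ℓ hℓN) (L.integral_alphaC ℓ hℓN) := by
  rw [BG, dif_pos hℓN]

variable {V : ValuationSubring (FF N)} {res : ↥V →+* ↥(modularFunctionFieldFullC κ M')}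

/-- **(R2) `ρ_T`, semi-abstract form.** -/
theorem rho_T_gen (L : LevelData κ p N M')
    (H : RhoInputs (K₀ := Kbar) V res vE (algebraMap Kbar (FF N)).fieldRange)
    (hker : ∀ v : ↥V, ¬ IsUnit v → res v = 0)
    (ℓ : Nat.Primes) (hℓN : ¬ (ℓ : ℕ) ∣ N)
    (hb14 : haveI : NeZero (ℓ : ℕ) := ⟨ℓ.2.ne_zero⟩
      ∀ u : ↥V,
        ∃ h : normAlong (heckeAlphaBar Kbar N (ℓ : ℕ)) (heckeBetaBar Kbar N (ℓ : ℕ) (u : FF N)) ∈ V,
          res ⟨_, h⟩ = normAlong (alphaC κ M' (ℓ : ℕ)) (betaC κ M' (ℓ : ℕ) (res u)))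
    (hd : haveI : NeZero (ℓ : ℕ) := ⟨ℓ.2.ne_zero⟩
      haveI := L.hpd ℓ hℓN
      ∀ e, ∀ w ∈ Place.fiberAlong (alphaC κ M' (ℓ : ℕ)) (L.integral_alphaC ℓ hℓN) (vE e),
        ∃ e', vE e' = w.restrictAlong (betaC κ M' (ℓ : ℕ)) (L.integral_betaC ℓ hℓN))
    (x : Pic0 Kbar (FF N)) (hx : x ∈ Pic0.torsion Kbar (FF N) p)
    (hx' : heckeOperatorBar N ℓ x ∈ Pic0.torsion Kbar (FF N) p) :
    rho V res vE p (algebraMap Kbar (FF N)).fieldRange H ⟨heckeOperatorBar N ℓ x, hx'⟩ =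
      BG vE L ℓ (rho V res vE p (algebraMap Kbar (FF N)).fieldRange H ⟨x, hx⟩) := by
  haveI : NeZero (ℓ : ℕ) := ⟨ℓ.2.ne_zero⟩
  haveI := L.hpd ℓ hℓN
  haveI := InputsMain19.hasPrincipalDivisors_level N (ℓ : ℕ)
  have hp' : ¬ p ∣ M' * (ℓ : ℕ) := L.not_dvd ℓ hℓN
  have hfinb : FiniteAlong κ (alphaC κ M' (ℓ : ℕ)) := finiteAlong_alphaC κ p M' (ℓ : ℕ) hp'
  have hop := heckeOperatorAlong_eq (AlongDegree25.heckeAlphaBarIntegral Kbar N (ℓ : ℕ) ℓ.2 hℓN)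
    (AlongDegree25.heckeBetaBarIntegral Kbar N (ℓ : ℕ) ℓ.2 hℓN)
    (InputsMain19.fundamentalIdentityAlong_beta N (ℓ : ℕ) ℓ.2 hℓN)
    (AlongDegree25.finiteAlong_alpha Kbar N (ℓ : ℕ) ℓ.2 hℓN)
    (InputsFinal15.normFormulaAlong_alpha N (ℓ : ℕ) ℓ.2 hℓN)
  have key := rho_correspondence_W (p := p) (heckeAlphaBar Kbar N (ℓ : ℕ))
    (heckeBetaBar Kbar N (ℓ : ℕ))
    (AlongDegree25.heckeAlphaBarIntegral Kbar N (ℓ : ℕ) ℓ.2 hℓN)
    (AlongDegree25.heckeBetaBarIntegral Kbar N (ℓ : ℕ) ℓ.2 hℓN)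
    (InputsMain19.fundamentalIdentityAlong_beta N (ℓ : ℕ) ℓ.2 hℓN)
    (AlongDegree25.finiteAlong_alpha Kbar N (ℓ : ℕ) ℓ.2 hℓN)
    (InputsFinal15.normFormulaAlong_alpha N (ℓ : ℕ) ℓ.2 hℓN)
    (alphaC κ M' (ℓ : ℕ)) (betaC κ M' (ℓ : ℕ))
    (L.integral_alphaC ℓ hℓN) (L.integral_betaC ℓ hℓN) H hfinb
    (normFormulaAlong_alphaC κ p M' (ℓ : ℕ) hp')
    (hb_of_norm_red _ _ _ _ H hker hfinb hb14)
    (hC_of_fieldRange _ _ H rfl) hd ⟨x, hx⟩
  rw [BG_eq vE L ℓ hℓN, ← key]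
  congr 1
  apply Subtype.ext
  show heckeOperatorBar N ℓ x = _
  rw [heckeOperatorBar_apply, hop]
  rfl

/-- **(R2) `B_one`, semi-abstract form**, from the auxiliary function `D` (design v2, report 1073 §0
(i)–(iv)). -/
theorem B_one_gen (L : LevelData κ p N M') (ℓ : Nat.Primes) (hℓN : ¬ (ℓ : ℕ) ∣ N)
    (hFI : haveI : NeZero (ℓ : ℕ) := ⟨ℓ.2.ne_zero⟩
      haveI := L.hpd ℓ hℓN
      FundamentalIdentityAlong κ (alphaC κ M' (ℓ : ℕ)) (L.integral_alphaC ℓ hℓN))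
    (Reg : Place κ ↥(modularFunctionFieldFullC κ M') → Prop)
    (D : ↥(modularFunctionFieldFullC κ M')) (c : ℤ) (hc : c ≠ 0)
    (hDE : ∀ e, (vE e).ord D = c)
    (hDoff : ∀ v : Place κ ↥(modularFunctionFieldFullC κ M'), Reg v →
      (¬ ∃ e, vE e = v) → v.ord D = 0)
    (hQ : haveI : NeZero (ℓ : ℕ) := ⟨ℓ.2.ne_zero⟩
      haveI := L.hpd ℓ hℓN
      ∀ e, ∀ w ∈ Place.fiberAlong (alphaC κ M' (ℓ : ℕ)) (L.integral_alphaC ℓ hℓN) (vE e),
        w.ord (betaC κ M' (ℓ : ℕ) D) = w.ord (alphaC κ M' (ℓ : ℕ) D))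
    (hReg : haveI : NeZero (ℓ : ℕ) := ⟨ℓ.2.ne_zero⟩
      haveI := L.hpd ℓ hℓN
      ∀ e, ∀ w ∈ Place.fiberAlong (alphaC κ M' (ℓ : ℕ)) (L.integral_alphaC ℓ hℓN) (vE e),
        Reg (w.restrictAlong (betaC κ M' (ℓ : ℕ)) (L.integral_betaC ℓ hℓN))) :
    BG vE L ℓ (fun _ => 1) = ((ℓ : ℕ) + 1 : ℤ) • (fun _ => 1 : ι → ZMod p) := by
  haveI : NeZero (ℓ : ℕ) := ⟨ℓ.2.ne_zero⟩
  haveI := L.hpd ℓ hℓN
  have hp' : ¬ p ∣ M' * (ℓ : ℕ) := L.not_dvd ℓ hℓN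
  have hℓM' : ¬ (ℓ : ℕ) ∣ M' := not_dvd_of_dvd L.hM'N hℓN
  have hdeg' : ∀ w : Place κ ↥(modularFunctionFieldFullC κ (M' * (ℓ : ℕ))), w.deg = 1 :=
    fun w => FF.deg_eq_one (isGen_jC κ p (M' * (ℓ : ℕ)) hp') w
  have hdeg : ∀ e, (vE e).deg = 1 := fun e => FF.deg_eq_one (isGen_jC κ p M' L.hpM') (vE e)
  have key := brandtW_one_of_aux (p := p) (vE := vE) (alphaC κ M' (ℓ : ℕ))
    (betaC κ M' (ℓ : ℕ)) (L.integral_alphaC ℓ hℓN) (L.integral_betaC ℓ hℓN) hFI hdeg' hdeg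
    Reg D c hc hDE hDoff hQ hReg
  rw [BG_eq vE L ℓ hℓN, key, finrankAlong_alphaC κ p M' (ℓ : ℕ) hp' ℓ.2 hℓM']
  push_cast
  rfl

/-- (d) from the auxiliary function: the hypothesis `hd` of `rho_T_gen`. -/
theorem hd_of_aux (L : LevelData κ p N M') (ℓ : Nat.Primes) (hℓN : ¬ (ℓ : ℕ) ∣ N)
    (Reg : Place κ ↥(modularFunctionFieldFullC κ M') → Prop)
    (D : ↥(modularFunctionFieldFullC κ M')) (c : ℤ) (hc : c ≠ 0)
    (hDE : ∀ e, (vE e).ord D = c)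
    (hDoff : ∀ v : Place κ ↥(modularFunctionFieldFullC κ M'), Reg v →
      (¬ ∃ e, vE e = v) → v.ord D = 0)
    (hQ : haveI : NeZero (ℓ : ℕ) := ⟨ℓ.2.ne_zero⟩
      haveI := L.hpd ℓ hℓN
      ∀ e, ∀ w ∈ Place.fiberAlong (alphaC κ M' (ℓ : ℕ)) (L.integral_alphaC ℓ hℓN) (vE e),
        w.ord (betaC κ M' (ℓ : ℕ) D) = w.ord (alphaC κ M' (ℓ : ℕ) D))
    (hReg : haveI : NeZero (ℓ : ℕ) := ⟨ℓ.2.ne_zero⟩
      haveI := L.hpd ℓ hℓN
      ∀ e, ∀ w ∈ Place.fiberAlong (alphaC κ M' (ℓ : ℕ)) (L.integral_alphaC ℓ hℓN) (vE e),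
        Reg (w.restrictAlong (betaC κ M' (ℓ : ℕ)) (L.integral_betaC ℓ hℓN))) :
    haveI : NeZero (ℓ : ℕ) := ⟨ℓ.2.ne_zero⟩
    haveI := L.hpd ℓ hℓN
    ∀ e, ∀ w ∈ Place.fiberAlong (alphaC κ M' (ℓ : ℕ)) (L.integral_alphaC ℓ hℓN) (vE e),
      ∃ e', vE e' = w.restrictAlong (betaC κ M' (ℓ : ℕ)) (L.integral_betaC ℓ hℓN) := by
  haveI : NeZero (ℓ : ℕ) := ⟨ℓ.2.ne_zero⟩
  haveI := L.hpd ℓ hℓN
  intro e w hw
  exact (node_of_aux vE (betaC κ M' (ℓ : ℕ)) (alphaC κ M' (ℓ : ℕ))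
    (L.integral_betaC ℓ hℓN) (L.integral_alphaC ℓ hℓN) Reg D c hc hDE hDoff hQ hReg e w hw).1

end Generic

/-! ### The instance: `κ = Kap A`, `V = gaussVal A (iotaHom N) HD.norm`, `res = Hol80.resK` -/

section Inst

variable (A : ValuationSubring Kbar) (p : ℕ) (N M' : ℕ) [NeZero N] [NeZero M']
  (HD : DeltaInputs A (iotaHom N) p)

/-- the Gauss valuation ring `O₁ ⊂ FF N`. -/
abbrev V1 : ValuationSubring (FF N) := gaussVal A (iotaHom N) HD.norm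

variable (hrange : ∀ x : ↥(V1 A p N HD),
    gaussResV A (iotaHom N) HD.norm x ∈ modularFunctionFieldFullC (Kap A) M')

/-- the residue map `O₁ →+* k₁ = FullC κ M'`. -/
abbrev res1 : ↥(V1 A p N HD) →+* ↥(modularFunctionFieldFullC (Kap A) M') :=
  resK HD.norm M' hrange

theorem res1_eq_zero (v : ↥(V1 A p N HD)) (hv : ¬ IsUnit v) : res1 A p N M' HD hrange v = 0 :=
  Subtype.ext ((gaussResV_eq_zero_iff v).2 hv)

/-- the residue of a constant of `A`. -/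
theorem res1_const (x : ↥(V1 A p N HD)) (a : ↥A)
    (hx : (x : FF N) = algebraMap Kbar (FF N) (a : Kbar)) :
    res1 A p N M' HD hrange x =
      algebraMap (Kap A) ↥(modularFunctionFieldFullC (Kap A) M') (IsLocalRing.residue ↥A a) := by
  apply Subtype.ext
  show gaussRes A (iotaHom N) (gaussValToSub A (iotaHom N) HD.norm x) = _
  have h1 : gaussValToSub A (iotaHom N) HD.norm x =
      ⟨algebraMap Kbar (FF N) (a : Kbar),
        const_mem_gaussSub (algebraMap Kbar (FF N)) HD.e_const a⟩ := Subtype.ext hx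
  rw [h1, gaussRes_const (algebraMap Kbar (FF N)) HD.e_const]
  show _ = algebraMap (Kap A) (LaurentSeries (Kap A)) (IsLocalRing.residue ↥A a)
  rw [algebraMap_laurentSeries_eq_single, HahnSeries.C_apply]

/-- the residues of the constant units have order `0` at every place. -/
theorem ord_res1_const (v : Place (Kap A) ↥(modularFunctionFieldFullC (Kap A) M'))
    (u : (↥(V1 A p N HD))ˣ)
    (hu : ((u : ↥(V1 A p N HD)) : FF N) ∈ (algebraMap Kbar (FF N)).fieldRange) :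
    v.ord (res1 A p N M' HD hrange (u : ↥(V1 A p N HD))) = 0 := by
  obtain ⟨c, hc⟩ := hu
  rcases A.mem_or_inv_mem c with hcA | hcA
  · rw [res1_const A p N M' HD hrange (u : ↥(V1 A p N HD)) ⟨c, hcA⟩ hc.symm]
    exact FF.ffp_ord_algebraMap v _
  · have hinv : (((u⁻¹ : (↥(V1 A p N HD))ˣ) : ↥(V1 A p N HD)) : FF N) =
        algebraMap Kbar (FF N) ((⟨c⁻¹, hcA⟩ : ↥A) : Kbar) := by
      rw [coe_units_inv', ← hc, map_inv₀]
    have h0 : v.ord (res1 A p N M' HD hrange ((u⁻¹ : (↥(V1 A p N HD))ˣ) : ↥(V1 A p N HD))) = 0 := by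
      rw [res1_const A p N M' HD hrange _ ⟨c⁻¹, hcA⟩ hinv]
      exact FF.ffp_ord_algebraMap v _
    have hmul : res1 A p N M' HD hrange (u : ↥(V1 A p N HD)) *
        res1 A p N M' HD hrange ((u⁻¹ : (↥(V1 A p N HD))ˣ) : ↥(V1 A p N HD)) = 1 := by
      rw [← map_mul, ← Units.val_mul, mul_inv_cancel, Units.val_one, map_one]
    have h1 := v.ord_mul (res_units_ne_zero (res := res1 A p N M' HD hrange) u)
      (res_units_ne_zero (res := res1 A p N M' HD hrange) u⁻¹)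
    rw [hmul, v.ord_one, h0, add_zero] at h1
    exact h1.symm

variable {ι : Type*} (vE : ι → Place (Kap A) ↥(modularFunctionFieldFullC (Kap A) M'))

/-- **`RhoInputs`** for the Gauss valuation ring of `FF N` and ANY family of places `vE` of `k₁`. -/
theorem rhoInputs : RhoInputs (K₀ := Kbar) (V1 A p N HD) (res1 A p N M' HD hrange) vE
    (algebraMap Kbar (FF N)).fieldRange where
  scal := hasConstScaling_gaussVal (algebraMap Kbar (FF N)) HD.e_const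
  constC := fun c => ⟨c, rfl⟩
  const := HD.const
  ordC := fun u hu e => ord_res1_const A p N M' HD hrange (vE e) u hu

/-- **The residue vector** `ρ : J₀(N)(ℚ̄)[p] →+ (ι → ZMod p)` (`= Brandt36.rho`). -/
def rhoX : ↥(Pic0.torsion Kbar (FF N) p) →+ (ι → ZMod p) :=
  rho (V1 A p N HD) (res1 A p N M' HD hrange) vE p (algebraMap Kbar (FF N)).fieldRange
    (rhoInputs A p N M' HD hrange vE)

theorem rhoX_eq : rhoX A p N M' HD hrange vE =
    rho (V1 A p N HD) (res1 A p N M' HD hrange) vE p (algebraMap Kbar (FF N)).fieldRange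
      (rhoInputs A p N M' HD hrange vE) := rfl

end Inst

section Main

variable (A : ValuationSubring Kbar) (p : ℕ) [Fact p.Prime] (N M' : ℕ) [NeZero N] [NeZero M']

instance instIsAlgClosedKap : IsAlgClosed (Kap A) :=
  Fermat.Agent.ES.KRON.KronInst10.isAlgClosed_residueField A

variable [CharP (Kap A) p] (L : LevelData (Kap A) p N M') (HD : DeltaInputs A (iotaHom N) p)
  (hrange : ∀ x : ↥(V1 A p N HD),
    gaussResV A (iotaHom N) HD.norm x ∈ modularFunctionFieldFullC (Kap A) M')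
  {ι : Type*} (vE : ι → Place (Kap A) ↥(modularFunctionFieldFullC (Kap A) M'))

/-- **(R2) `ρ_T`**, in the shape of `Local66.Assembly.LocalGeom.ρ_T`
(`ρ := rhoX A p N M' HD hrange vE`, `B := BG vE L`). -/
theorem rhoX_T (ℓ : Nat.Primes) (hℓN : ¬ (ℓ : ℕ) ∣ N)
    (hb14 : haveI : NeZero (ℓ : ℕ) := ⟨ℓ.2.ne_zero⟩
      ∀ u : ↥(V1 A p N HD),
        ∃ h : normAlong (heckeAlphaBar Kbar N (ℓ : ℕ)) (heckeBetaBar Kbar N (ℓ : ℕ) (u : FF N)) ∈
            V1 A p N HD,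
          res1 A p N M' HD hrange ⟨_, h⟩ =
            normAlong (alphaC (Kap A) M' (ℓ : ℕ))
              (betaC (Kap A) M' (ℓ : ℕ) (res1 A p N M' HD hrange u)))
    (hd : haveI : NeZero (ℓ : ℕ) := ⟨ℓ.2.ne_zero⟩
      haveI := L.hpd ℓ hℓN
      ∀ e, ∀ w ∈ Place.fiberAlong (alphaC (Kap A) M' (ℓ : ℕ)) (L.integral_alphaC ℓ hℓN) (vE e),
        ∃ e', vE e' = w.restrictAlong (betaC (Kap A) M' (ℓ : ℕ)) (L.integral_betaC ℓ hℓN))
    (x : Pic0 Kbar (FF N)) (hx : x ∈ Pic0.torsion Kbar (FF N) p)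
    (hx' : heckeOperatorBar N ℓ x ∈ Pic0.torsion Kbar (FF N) p) :
    rhoX A p N M' HD hrange vE ⟨heckeOperatorBar N ℓ x, hx'⟩ =
      BG vE L ℓ (rhoX A p N M' HD hrange vE ⟨x, hx⟩) :=
  rho_T_gen vE L (rhoInputs A p N M' HD hrange vE) (res1_eq_zero A p N M' HD hrange) ℓ hℓN hb14 hd
    x hx hx'

end Main

end Fermat.Agent.T1B.Brandt57
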