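/-
Programme T1B (row 38 / S44), cell R2/BRANDT (owner helper36), work package W5 (helper57):
THE INSTANCE, with every hypothesis of `Brandt57/Inst.lean` discharged EXCEPT the node places `vE`
and the auxiliary function (design v2, report 1073 §0 (i)–(iv)), bundled in `AuxData`.

* `LevelData.ofDvd`   : `LevelData κ p N M'` from `M' ∣ N`, `p ∣ N`, `p ∤ M'` (helper87's
                        `HPDCharP.hasPrincipalDivisors_fullC`);
* `AuxData L vE`      : `Reg`, `D`, `c ≠ 0` with (i) `hDE`, (ii) `hDoff`, (iii) `hQ`, (iv) `hReg`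
                        (the last two for every prime `ℓ ∤ N`), stated WITHOUT `Place.fiberAlong`;
* `B_one_of_aux`, `rho_T_of_aux` : the two fields for abstract `κ`, `V`, `res` from `AuxData` + `hb14`;
* level `N = M' p`, `4 ∣ M'`, `p ∤ M'`, `A` a valuation ring of `ℚ̄` over `p`, `κ = Kap A`:
  `HDF` (`= Hecke87.deltaInputs₁'`), `hrangeF` (`= Brandt14.hRF1_four`, helper16's RF1), `levelF`,
  `rhoF vE := rhoX A p (M' p) M' HDF hrangeF vE`, `BF vE := BG vE levelF`,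
  **`BF_one`**, **`rhoF_T`** : the fields `B_one`, `ρ_T` of `Local66.Assembly.LocalGeom`
  (`R := ι → ZMod p`, `ρ := rhoF vE`, `B := BF vE`, `one := fun _ => 1`) from `AuxData` ALONE.
-/
import Mathlib
import Fermat.Agent.T1B.Brandt57.Inst
import Fermat.Agent.T1B.Brandt14.NormRedFullC
import Fermat.Agent.T1B.Hecke87.CharPX0Final
import Fermat.Agent.T1B.Hecke87.InputsFinal

set_option autoImplicit false
set_option linter.unusedSectionVars false
set_option linter.unusedVariables false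
set_option linter.style.haveILetI false

noncomputable section

namespace Fermat.Agent.T1B.Brandt57

open AlgebraicCurve ModularCurve HahnSeries
open Fermat.Agent.X0 Fermat.Agent.T1B.Hecke3 Fermat.Agent.T1B.Hol80 Fermat.Agent.T1B.Brandt36
open Fermat.Agent.ES.HECKE Fermat.Agent.ES.HECKE.PointFormula28
open Fermat.Agent.T1B.Hecke87.CharPX0

/- speed: the canonical `Algebra κ ↥S` instance of an intermediate field, tried first. -/
attribute [local instance 5000] SubalgebraClass.toAlgebra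

/-! ### Abstract `κ` -/

section Generic

variable {κ : Type} [Field κ] [IsAlgClosed κ] {p : ℕ} [Fact p.Prime] [CharP κ p]
  {N M' : ℕ} [NeZero N] [NeZero M']

/-- `LevelData` from the divisibilities alone (characteristic `p` principal divisors: helper87). -/
theorem LevelData.ofDvd (hM'N : M' ∣ N) (hpN : p ∣ N) (hpM' : ¬ p ∣ M') :
    LevelData κ p N M' where
  hM'N := hM'N
  hpN := hpN
  hpM' := hpM'
  hpd := fun ℓ hℓN =>
    haveI : NeZero (ℓ : ℕ) := ⟨ℓ.2.ne_zero⟩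
    Fermat.Agent.T1B.Hecke87.HPDCharP.hasPrincipalDivisors_fullC κ p (M' * (ℓ : ℕ))
      (not_dvd_mul_of (Fact.out : p.Prime) ℓ.2 hpM' (ne_of_dvd_of_not_dvd hpN hℓN))

variable {ι : Type*} (L : LevelData κ p N M')
  (vE : ι → Place κ ↥(modularFunctionFieldFullC κ M'))

/-- **The auxiliary function** (design v2, report 1073 §0): `D ∈ k₁` with
(i) `ord_e D = c ≠ 0` at every node, (ii) `ord_v D = 0` at the places of the chart (`Reg`) which are
not nodes, (iii) `ord_w (β̄ D) = ord_w (ᾱ D)` at the places `w` of `k₁'` over a node (via `ᾱ`),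
(iv) `β̄^* w` lies in the chart for these `w`; (iii), (iv) for every prime `ℓ ∤ N`. -/
structure AuxData where
  Reg : Place κ ↥(modularFunctionFieldFullC κ M') → Prop
  D : ↥(modularFunctionFieldFullC κ M')
  c : ℤ
  hc : c ≠ 0
  hDE : ∀ e, (vE e).ord D = c
  hDoff : ∀ v : Place κ ↥(modularFunctionFieldFullC κ M'), Reg v → (¬ ∃ e, vE e = v) → v.ord D = 0
  hQ : ∀ (ℓ : Nat.Primes) (hℓN : ¬ (ℓ : ℕ) ∣ N),
    haveI : NeZero (ℓ : ℕ) := ⟨ℓ.2.ne_zero⟩
    ∀ (e : ι) (w : Place κ ↥(modularFunctionFieldFullC κ (M' * (ℓ : ℕ)))),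
      w.restrictAlong (alphaC κ M' (ℓ : ℕ)) (L.integral_alphaC ℓ hℓN) = vE e →
        w.ord (betaC κ M' (ℓ : ℕ) D) = w.ord (alphaC κ M' (ℓ : ℕ) D)
  hReg : ∀ (ℓ : Nat.Primes) (hℓN : ¬ (ℓ : ℕ) ∣ N),
    haveI : NeZero (ℓ : ℕ) := ⟨ℓ.2.ne_zero⟩
    ∀ (e : ι) (w : Place κ ↥(modularFunctionFieldFullC κ (M' * (ℓ : ℕ)))),
      w.restrictAlong (alphaC κ M' (ℓ : ℕ)) (L.integral_alphaC ℓ hℓN) = vE e →
        Reg (w.restrictAlong (betaC κ M' (ℓ : ℕ)) (L.integral_betaC ℓ hℓN))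

variable {L vE}

/-- **`B_one`** from the auxiliary function. -/
theorem B_one_of_aux (X : AuxData L vE) (ℓ : Nat.Primes) (hℓN : ¬ (ℓ : ℕ) ∣ N) :
    BG vE L ℓ (fun _ => 1) = ((ℓ : ℕ) + 1 : ℤ) • (fun _ => 1 : ι → ZMod p) := by
  haveI : NeZero (ℓ : ℕ) := ⟨ℓ.2.ne_zero⟩
  haveI := L.hpd ℓ hℓN
  refine B_one_gen vE L ℓ hℓN ?_ X.Reg X.D X.c X.hc X.hDE X.hDoff ?_ ?_
  · exact Fermat.Agent.T1B.Hecke87.CharPX0Final.fundamentalIdentityAlong_alphaC κ p M' (ℓ : ℕ)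
      (L.not_dvd ℓ hℓN)
  · intro e w hw
    exact X.hQ ℓ hℓN e w (Place.mem_fiberAlong.1 hw)
  · intro e w hw
    exact X.hReg ℓ hℓN e w (Place.mem_fiberAlong.1 hw)

variable {V : ValuationSubring (FF N)} {res : ↥V →+* ↥(modularFunctionFieldFullC κ M')}

/-- **`ρ_T`** from the auxiliary function and (b). -/
theorem rho_T_of_aux (X : AuxData L vE)
    (H : RhoInputs (K₀ := Kbar) V res vE (algebraMap Kbar (FF N)).fieldRange)
    (hker : ∀ v : ↥V, ¬ IsUnit v → res v = 0)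
    (ℓ : Nat.Primes) (hℓN : ¬ (ℓ : ℕ) ∣ N)
    (hb14 : haveI : NeZero (ℓ : ℕ) := ⟨ℓ.2.ne_zero⟩
      ∀ u : ↥V,
        ∃ h : normAlong (heckeAlphaBar Kbar N (ℓ : ℕ)) (heckeBetaBar Kbar N (ℓ : ℕ) (u : FF N)) ∈ V,
          res ⟨_, h⟩ = normAlong (alphaC κ M' (ℓ : ℕ)) (betaC κ M' (ℓ : ℕ) (res u)))
    (x : Pic0 Kbar (FF N)) (hx : x ∈ Pic0.torsion Kbar (FF N) p)
    (hx' : heckeOperatorBar N ℓ x ∈ Pic0.torsion Kbar (FF N) p) :
    rho V res vE p (algebraMap Kbar (FF N)).fieldRange H ⟨heckeOperatorBar N ℓ x, hx'⟩ =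
      BG vE L ℓ (rho V res vE p (algebraMap Kbar (FF N)).fieldRange H ⟨x, hx⟩) := by
  haveI : NeZero (ℓ : ℕ) := ⟨ℓ.2.ne_zero⟩
  haveI := L.hpd ℓ hℓN
  refine rho_T_gen vE L H hker ℓ hℓN hb14 ?_ x hx hx'
  refine hd_of_aux vE L ℓ hℓN X.Reg X.D X.c X.hc X.hDE X.hDoff ?_ ?_
  · intro e w hw
    exact X.hQ ℓ hℓN e w (Place.mem_fiberAlong.1 hw)
  · intro e w hw
    exact X.hReg ℓ hℓN e w (Place.mem_fiberAlong.1 hw)

end Generic

/-! ### Level `N = M' p`, `4 ∣ M'`, `κ = Kap A` -/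

section Final

variable (A : ValuationSubring Kbar) (p : ℕ) [hp : Fact p.Prime] (hA : A.LiesOverPrime p)
  (M' : ℕ) [NeZero M'] [NeZero (M' * p)] (hpM' : ¬ p ∣ M') (hM' : 4 ∣ M')

include hA in
/-- the residue characteristic. -/
theorem charP_kap : CharP (Kap A) p :=
  Fermat.Agent.ES.KRON.KronInst10.charP_residueField A hp.out hA

variable [CharP (Kap A) p]

/-- `DeltaInputs` at level `M' p` (helper87 / Gauss95). -/
theorem HDF : DeltaInputs A (iotaHom (M' * p)) p :=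
  Fermat.Agent.T1B.Hecke87.deltaInputs₁' (M' * p) A p

include hA hpM' hM' in
/-- RF1 at level `M' p` (helper16 / helper14). -/
theorem hrangeF (x : ↥(V1 A p (M' * p) (HDF A p M'))) :
    gaussResV A (iotaHom (M' * p)) (HDF A p M').norm x ∈ modularFunctionFieldFullC (Kap A) M' :=
  haveI : NeZero p := ⟨hp.out.ne_zero⟩
  Fermat.Agent.T1B.Brandt14.hRF1_four A hA M' hpM' hM'
    (gaussValToSub A (iotaHom (M' * p)) (HDF A p M').norm x)

include hpM' in
/-- the level data at `N = M' p`. -/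
theorem levelF : LevelData (Kap A) p (M' * p) M' :=
  LevelData.ofDvd (dvd_mul_right M' p) (dvd_mul_left p M') hpM'

variable {ι : Type*} (vE : ι → Place (Kap A) ↥(modularFunctionFieldFullC (Kap A) M'))

/-- **The residue vector at level `M' p`.** -/
def rhoF : ↥(Pic0.torsion Kbar (FF (M' * p)) p) →+ (ι → ZMod p) :=
  rhoX A p (M' * p) M' (HDF A p M') (hrangeF A p hA M' hpM' hM') vE

/-- **The Brandt operators at level `M' p`.** -/
def BF (ℓ : Nat.Primes) : (ι → ZMod p) →+ (ι → ZMod p) := BG vE (levelF A p M' hpM') ℓ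

theorem rhoF_eq : rhoF A p hA M' hpM' hM' vE =
    rho (V1 A p (M' * p) (HDF A p M'))
      (res1 A p (M' * p) M' (HDF A p M') (hrangeF A p hA M' hpM' hM')) vE p
      (algebraMap Kbar (FF (M' * p))).fieldRange
      (rhoInputs A p (M' * p) M' (HDF A p M') (hrangeF A p hA M' hpM' hM') vE) := rfl

/-- (b) at level `M' p` (helper14's `res₁_normAlong_alpha_beta`) for `V1`, `res1`. -/
theorem hb14F (ℓ : Nat.Primes) (hℓN : ¬ (ℓ : ℕ) ∣ M' * p) :
    haveI : NeZero (ℓ : ℕ) := ⟨ℓ.2.ne_zero⟩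
    ∀ u : ↥(V1 A p (M' * p) (HDF A p M')),
      ∃ h : normAlong (heckeAlphaBar Kbar (M' * p) (ℓ : ℕ))
          (heckeBetaBar Kbar (M' * p) (ℓ : ℕ) (u : FF (M' * p))) ∈ V1 A p (M' * p) (HDF A p M'),
        res1 A p (M' * p) M' (HDF A p M') (hrangeF A p hA M' hpM' hM') ⟨_, h⟩ =
          normAlong (alphaC (Kap A) M' (ℓ : ℕ))
            (betaC (Kap A) M' (ℓ : ℕ)
              (res1 A p (M' * p) M' (HDF A p M') (hrangeF A p hA M' hpM' hM') u)) := by
  haveI : NeZero (ℓ : ℕ) := ⟨ℓ.2.ne_zero⟩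
  haveI : NeZero p := ⟨hp.out.ne_zero⟩
  intro u
  exact Fermat.Agent.T1B.Brandt14.res₁_normAlong_alpha_beta A hA M' (ℓ : ℕ) hpM' hM' ℓ.2 hℓN u

/-- **(R2) `B_one`** at level `M' p`, from the auxiliary function alone. -/
theorem BF_one (X : AuxData (levelF A p M' hpM') vE) (ℓ : Nat.Primes)
    (hℓN : ¬ (ℓ : ℕ) ∣ M' * p) :
    BF A p M' hpM' vE ℓ (fun _ => 1) = ((ℓ : ℕ) + 1 : ℤ) • (fun _ => 1 : ι → ZMod p) :=
  B_one_of_aux X ℓ hℓN

/-- **(R2) `ρ_T`** at level `M' p`, from the auxiliary function alone. -/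
theorem rhoF_T (X : AuxData (levelF A p M' hpM') vE) (ℓ : Nat.Primes)
    (hℓN : ¬ (ℓ : ℕ) ∣ M' * p) (x : Pic0 Kbar (FF (M' * p)))
    (hx : x ∈ Pic0.torsion Kbar (FF (M' * p)) p)
    (hx' : heckeOperatorBar (M' * p) ℓ x ∈ Pic0.torsion Kbar (FF (M' * p)) p) :
    rhoF A p hA M' hpM' hM' vE ⟨heckeOperatorBar (M' * p) ℓ x, hx'⟩ =
      BF A p M' hpM' vE ℓ (rhoF A p hA M' hpM' hM' vE ⟨x, hx⟩) :=
  rho_T_of_aux X (rhoInputs A p (M' * p) M' (HDF A p M') (hrangeF A p hA M' hpM' hM') vE)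
    (res1_eq_zero A p (M' * p) M' (HDF A p M') (hrangeF A p hA M' hpM' hM')) ℓ hℓN
    (hb14F A p hA M' hpM' hM' ℓ hℓN) x hx hx'

end Final

end Fermat.Agent.T1B.Brandt57
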