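/-
Programme T1B (row 38 / S44), cell R2/BRANDT, THE HUB PLUG OF THE `R`-BLOCK (helper57, placement of
helper46 14:58Z): the six binders

  `(R : Type) [AddCommGroup R] (ρ : ↥(torsP N p) →+ R) (B : Nat.Primes → R →+ R) (one : R)`
  `(B_one : …) (ρ_T : …)`

of `Local66.Glue.localGeom_of_fields`, at the hub: `A = padicPlace p`, `N = M' p`, `4 ∣ M'`, `p ∤ M'`
(in the application `M' = 4 m`), on helper36's INTRINSIC, level-independent node family
(`Brandt14.NodeK`, helper14): with `κ = Kap (padicPlace p)`, `k₁ = F_{M'}` over `κ`,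

* `HubNode  = {v : Place κ k₁ // RegK v ∧ v.ord D̄ ≠ 0}`,  `hubV = Subtype.val`;
* `HubR     = HubNode → ZMod p`,  `hubOne = fun _ => 1`;
* `hubRho   = Brandt57.rhoF (padicPlace p) … hubV`  (`= Brandt36.rho V₂ res₂ hubV p C₂ HR` BY `rfl`
  (`hubRho_eq`) for `V₂ = V1`, `res₂ = res1`, `C₂` the constants, `HR = rhoInputs`: the data to feed
  `R1Asm2.rho_of_level` / `ADPe93.Fields.rho_fields` so that `ρ_const`, `ρ_ker` see the SAME `ρ`);
* `hubB ℓ   = Brandt57.BF (padicPlace p) … hubV ℓ`;
* `hubB_one`, `hubRho_T` : the fields `B_one`, `ρ_T` in the literal binder shape, from the ONE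
  remaining proposition `HubHDE` (helper14's `(hDE*)`: the auxiliary function `D̄` has the same
  nonzero order at all its zeros/poles on the `t̄`-finite part; supplier W3 at one level + `hN`).
-/
import Mathlib
import Fermat.Agent.T1B.Brandt14.AuxDataAsm
import Fermat.Agent.T1.LocModel46.Basic

set_option autoImplicit false
set_option linter.unusedSectionVars false
set_option linter.unusedVariables false
set_option linter.style.haveILetI false

noncomputable section

namespace Fermat.Agent.T1B.Brandt57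

open AlgebraicCurve ModularCurve HahnSeries
open Fermat.Agent.X0 Fermat.Agent.T1B.Hecke3 Fermat.Agent.T1B.Hol80 Fermat.Agent.T1B.Brandt36
open Fermat.Agent.ES.HECKE Fermat.Agent.ES.HECKE.PointFormula28
open Fermat.Agent.T1B.Hecke87.CharPX0 Fermat.Agent.T1B.Brandt14

attribute [local instance 5000] SubalgebraClass.toAlgebra

section HubPlug

variable (p : ℕ) [hp : Fact p.Prime]

/-- the hub place lies over `p`. -/
theorem hub_hA : (padicPlace p).LiesOverPrime p := Fermat.Agent.T1.LocModel46.liesOverPrime p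

/-- the residue field of the hub place has characteristic `p`. -/
instance instCharPKapHub : CharP (Kap (padicPlace p)) p := charP_kap (padicPlace p) p (hub_hA p)

variable (M' : ℕ) [NeZero M'] [NeZero (M' * p)] (hpM' : ¬ p ∣ M') (hM' : 4 ∣ M')

/-- **the intrinsic node family at the hub** (helper36's design; `Brandt14.NodeK`). -/
def HubNode : Type := NodeK (padicPlace p) p (hub_hA p) M' hpM' hM'

/-- the places of the node family. -/
def hubV : HubNode p M' hpM' hM' →
    Place (Kap (padicPlace p)) ↥(modularFunctionFieldFullC (Kap (padicPlace p)) M') :=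
  vK (padicPlace p) p (hub_hA p) M' hpM' hM'

theorem hubV_injective : Function.Injective (hubV p M' hpM' hM') :=
  vK_injective (padicPlace p) p (hub_hA p) M' hpM' hM'

/-- **`R`** : the residue vectors. -/
abbrev HubR : Type := HubNode p M' hpM' hM' → ZMod p

/-- **`one`**. -/
def hubOne : HubR p M' hpM' hM' := fun _ => 1

/-- **`ρ`** at the hub. -/
def hubRho : ↥(Pic0.torsion Kbar (FF (M' * p)) p) →+ HubR p M' hpM' hM' :=
  rhoF (padicPlace p) p (hub_hA p) M' hpM' hM' (hubV p M' hpM' hM')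

/-- **`B`** at the hub. -/
def hubB (ℓ : Nat.Primes) : HubR p M' hpM' hM' →+ HubR p M' hpM' hM' :=
  BF (padicPlace p) p M' hpM' (hubV p M' hpM' hM') ℓ

/-- `ρ` in the vocabulary of `Brandt36.rho` (the form consumed by `R1Asm2.rho_of_level`). -/
theorem hubRho_eq : hubRho p M' hpM' hM' =
    rho (V1 (padicPlace p) p (M' * p) (HDF (padicPlace p) p M'))
      (res1 (padicPlace p) p (M' * p) M' (HDF (padicPlace p) p M')
        (hrangeF (padicPlace p) p (hub_hA p) M' hpM' hM')) (hubV p M' hpM' hM') p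
      (algebraMap Kbar (FF (M' * p))).fieldRange
      (rhoInputs (padicPlace p) p (M' * p) M' (HDF (padicPlace p) p M')
        (hrangeF (padicPlace p) p (hub_hA p) M' hpM' hM') (hubV p M' hpM' hM')) := rfl

/-- `res₂` of the hub kills the non-units of `V₂` (hypothesis `hres` of `R1Asm2.rho_of_level`). -/
theorem hubRes_eq_zero (v : ↥(V1 (padicPlace p) p (M' * p) (HDF (padicPlace p) p M')))
    (hv : ¬ IsUnit v) :
    res1 (padicPlace p) p (M' * p) M' (HDF (padicPlace p) p M')
      (hrangeF (padicPlace p) p (hub_hA p) M' hpM' hM') v = 0 :=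
  res1_eq_zero (padicPlace p) p (M' * p) M' (HDF (padicPlace p) p M')
    (hrangeF (padicPlace p) p (hub_hA p) M' hpM' hM') v hv

/-- **THE ONE REMAINING PROPOSITION** (helper14's `(hDE*)`): the auxiliary function `D̄ = DK` has the
same nonzero order at all its zeros/poles in the `t̄`-finite part of `X₀(M')` over `κ`. -/
def HubHDE : Prop :=
  ∃ c : ℤ, c ≠ 0 ∧
    ∀ v : Place (Kap (padicPlace p)) ↥(modularFunctionFieldFullC (Kap (padicPlace p)) M'),
      RegK (padicPlace p) (hub_hA p) M' hpM' hM' v →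
        v.ord (DK (padicPlace p) (hub_hA p) M' hpM' hM') ≠ 0 →
          v.ord (DK (padicPlace p) (hub_hA p) M' hpM' hM') = c

/-- nonemptiness of the node family, in terms of places (the instance `Nonempty (HubNode …)` is needed
by `R1Asm2.rho_fields_of_levels`; supplier: one two-branch maximal ideal at the hub +
`Brandt55.nonempty_P`). -/
theorem nonempty_hubNode_iff : Nonempty (HubNode p M' hpM' hM') ↔
    ∃ v : Place (Kap (padicPlace p)) ↥(modularFunctionFieldFullC (Kap (padicPlace p)) M'),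
      RegK (padicPlace p) (hub_hA p) M' hpM' hM' v ∧
        v.ord (DK (padicPlace p) (hub_hA p) M' hpM' hM') ≠ 0 :=
  ⟨fun ⟨e⟩ => ⟨e.1, e.2⟩, fun ⟨v, hv⟩ => ⟨⟨v, hv⟩⟩⟩

/-- the node places are regular and are zeros/poles of `D̄`. -/
theorem hubV_spec (e : HubNode p M' hpM' hM') :
    RegK (padicPlace p) (hub_hA p) M' hpM' hM' (hubV p M' hpM' hM' e) ∧
      (hubV p M' hpM' hM' e).ord (DK (padicPlace p) (hub_hA p) M' hpM' hM') ≠ 0 := e.2

/-- every regular zero/pole of `D̄` is a node place. -/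
theorem exists_hubV_eq_iff
    (v : Place (Kap (padicPlace p)) ↥(modularFunctionFieldFullC (Kap (padicPlace p)) M')) :
    (∃ e, hubV p M' hpM' hM' e = v) ↔
      (RegK (padicPlace p) (hub_hA p) M' hpM' hM' v ∧
        v.ord (DK (padicPlace p) (hub_hA p) M' hpM' hM') ≠ 0) :=
  exists_vK_eq_iff (padicPlace p) p (hub_hA p) M' hpM' hM' v

variable {p M' hpM' hM'}

/-- **`B_one`** in the binder shape of `Local66.Glue.localGeom_of_fields` (`N := M' * p`). -/
theorem hubB_one (h : HubHDE p M' hpM' hM') :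
    ∀ ℓ : Nat.Primes, ¬ (ℓ : ℕ) ∣ M' * p →
      hubB p M' hpM' hM' ℓ (hubOne p M' hpM' hM') =
        ((ℓ : ℕ) + 1 : ℤ) • hubOne p M' hpM' hM' :=
  fun ℓ hℓN => BF_one_nodeK (padicPlace p) p (hub_hA p) M' hpM' hM' h ℓ hℓN

/-- **`ρ_T`** in the binder shape of `Local66.Glue.localGeom_of_fields` (`N := M' * p`;
`JZero N = Pic0 Kbar (FF N)`, `torsP N p = Pic0.torsion Kbar (FF N) p` are reducible). -/
theorem hubRho_T (h : HubHDE p M' hpM' hM') :
    ∀ ℓ : Nat.Primes, ¬ (ℓ : ℕ) ∣ M' * p → ∀ (x : JZero (M' * p))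
      (hx : x ∈ Pic0.torsion Kbar (FF (M' * p)) p)
      (hx' : heckeOperatorBar (M' * p) ℓ x ∈ Pic0.torsion Kbar (FF (M' * p)) p),
      hubRho p M' hpM' hM' ⟨_, hx'⟩ = hubB p M' hpM' hM' ℓ (hubRho p M' hpM' hM' ⟨x, hx⟩) :=
  fun ℓ hℓN x hx hx' =>
    rhoF_T_nodeK (padicPlace p) p (hub_hA p) M' hpM' hM' h ℓ hℓN x hx hx'

/-- `ρ x = s • one` unfolds to `ρ x = fun _ => s` (the conclusion shape of `R1Asm2.rho_of_level`). -/
theorem hubOne_zsmul (s : ℤ) : s • hubOne p M' hpM' hM' = fun _ => (s : ZMod p) := by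
  funext e
  simp [hubOne]

/-- constant residue vectors are multiples of `one` (adapter for `ρ_const`). -/
theorem exists_zsmul_hubOne_of_const {r : HubR p M' hpM' hM'}
    (h : ∃ s : ℤ, r = fun _ => (s : ZMod p)) : ∃ s : ℤ, r = s • hubOne p M' hpM' hM' := by
  obtain ⟨s, hs⟩ := h
  exact ⟨s, by rw [hubOne_zsmul, hs]⟩

/-- a residue vector vanishing identically vanishes at every node (adapter for `ρ_ker`; for the
converse direction one needs `Nonempty HubNode`). -/
theorem hub_apply_eq_zero_of_eq_zero {r : HubR p M' hpM' hM'} (h : r = 0)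
    (e : HubNode p M' hpM' hM') : r e = 0 := by
  rw [h]; rfl

end HubPlug

/-! ### The six binders in one bundle (shape check against `Local66.Glue.localGeom_of_fields`) -/

section Bundle

universe uR

/-- the `R`-block binders of `Local66.Glue.localGeom_of_fields` at level `N`, bundled. -/
structure RBlock (p N : ℕ) [NeZero N] where
  R : Type uR
  instR : AddCommGroup R
  ρ : ↥(Pic0.torsion Kbar (FF N) p) →+ R
  B : Nat.Primes → R →+ R
  one : R
  B_one : ∀ ℓ : Nat.Primes, ¬ (ℓ : ℕ) ∣ N → B ℓ one = ((ℓ : ℕ) + 1 : ℤ) • one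
  ρ_T : ∀ ℓ : Nat.Primes, ¬ (ℓ : ℕ) ∣ N → ∀ (x : JZero N)
    (hx : x ∈ Pic0.torsion Kbar (FF N) p)
    (hx' : heckeOperatorBar N ℓ x ∈ Pic0.torsion Kbar (FF N) p), ρ ⟨_, hx'⟩ = B ℓ (ρ ⟨x, hx⟩)

attribute [instance] RBlock.instR

/-- **the `R`-block of the hub.** -/
def hubRBlock (p : ℕ) [Fact p.Prime] (M' : ℕ) [NeZero M'] [NeZero (M' * p)] (hpM' : ¬ p ∣ M')
    (hM' : 4 ∣ M') (h : HubHDE p M' hpM' hM') : RBlock.{0} p (M' * p) where
  R := HubR p M' hpM' hM'
  instR := inferInstance
  ρ := hubRho p M' hpM' hM'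
  B := hubB p M' hpM' hM'
  one := hubOne p M' hpM' hM'
  B_one := hubB_one h
  ρ_T := hubRho_T h

end Bundle

end Fermat.Agent.T1B.Brandt57
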