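/-
Programme T1B (row 38 / S44), cell R2/BRANDT, THE HUB PLUG OF THE `R`-BLOCK, part 2 (helper57):
**DISCHARGE OF `HubHDE`** (the one remaining proposition of `Brandt57/HubPlug.lean`) on helper9's
concrete hub `Hub9`, from helper14's R2-FINAL `Brandt14.hDE_R2` (which plugs helper79's H0-HUB leaf,
helper29's `resChart_h0K` and the leaf `hReg-K`):

* `hubHDE_of_hN` : for ANY hub field `K` (`H : HubParams p M' K`), ANY thickness `Kth` and
  `hN : NodalChartHyp π (O1S) (O2S) Kth` on the source chart `B0S H` (supplier: helper37's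
  `NodeNF37.HubHyp.nodalChartHypS0 H`, `Kth = 1`): `HubHDE p M' H.hpM H.h4`; the nodal model bundle is
  `hL := Hub9.numDataS H`;
* `hubHDE_of_provider` : `HubHDE p M' hpM' hM'` for `p ≠ 2` from the supplier of `hN` stated for every
  hub field (the field exists: `Hub46.exists_inertial_zeta_field`);
* `hubRBlock_of_provider`, `hubB_one_of_provider`, `hubRho_T_of_provider` : the six `R`-block binders
  of `Local66.Glue.localGeom_of_fields` with ONLY that supplier as hypothesis.
-/
import Mathlib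
import Fermat.Agent.T1B.Brandt57.HubPlug
import Fermat.Agent.T1B.Brandt14.R2Hub
import Fermat.Agent.T1B.Hub9.Base
import Fermat.Agent.T1B.Hub46.ExistsField

set_option autoImplicit false
set_option linter.unusedSectionVars false
set_option linter.unusedVariables false
set_option linter.style.haveILetI false

noncomputable section

namespace Fermat.Agent.T1B.Brandt57

open AlgebraicCurve ModularCurve HahnSeries IntermediateField
open Fermat.Agent.X0 Fermat.Agent.RED.Interface4 Fermat.Agent.RED.PUR.GaussGen8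
open Fermat.Agent.T1B.Hecke3 Fermat.Agent.T1B.Hol80 Fermat.Agent.T1B.Brandt14
open Fermat.Agent.T1B.Local66.LocalBase Fermat.Agent.T1B.Hub9
open Fermat.Agent.ES.N34.ModelDefs9
open scoped Fermat.Agent.T1.Assembly41.FastInst

attribute [local instance 5000] SubalgebraClass.toAlgebra

section HubHDE

variable {p M' : ℕ} [hp : Fact p.Prime] [NeZero p] [NeZero M'] [NeZero (M' * p)]

/-- the supplier of `hN`: on every hub field, chart `0` of the source is nodal (of some thickness). -/
def HubNodalProvider (p M' : ℕ) [Fact p.Prime] [NeZero p] [NeZero M'] : Prop :=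
  ∀ (K : IntermediateField ℚ Qbar) [FiniteDimensional ℚ K] (H : HubParams p M' K),
    ∃ Kth : ℕ, NodalChartHyp (algebraMap (Wb p K) ↥(B0S H) (piW p K)) (O1S p M' K)
      (O2S p M' K) Kth

variable {K : IntermediateField ℚ Qbar} [FiniteDimensional ℚ K]

/-- **`HubHDE` from `hN`** on the concrete hub. -/
theorem hubHDE_of_hN (H : HubParams p M' K) {Kth : ℕ}
    (hN : NodalChartHyp (algebraMap (Wb p K) ↥(B0S H) (piW p K)) (O1S p M' K) (O2S p M' K) Kth) :
    HubHDE p M' H.hpM H.h4 :=
  hDE_R2 (padicPlace p) p (hub_hA p) M' H.hpM H.h4 (isUnif_piW p K) (hES p M' K) H.htq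
    (numDataS H) hN

omit [FiniteDimensional ℚ K] in
/-- **`HubHDE`** from the supplier of `hN`. -/
theorem hubHDE_of_provider (hp2 : p ≠ 2) (hpM' : ¬ p ∣ M') (hM' : 4 ∣ M')
    (hprov : HubNodalProvider p M') : HubHDE p M' hpM' hM' := by
  obtain ⟨K, hfin, hζ, hK, -⟩ := Fermat.Agent.T1B.Hub46.exists_inertial_zeta_field p M' hpM'
  haveI : FiniteDimensional ℚ K := hfin
  have H : HubParams p M' K := ⟨hp2, hM', hpM', hζ, hK⟩
  obtain ⟨Kth, hN⟩ := hprov K H
  exact hubHDE_of_hN H hN

omit [FiniteDimensional ℚ K] in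
/-- **`B_one`** at the hub from the supplier of `hN` alone. -/
theorem hubB_one_of_provider (hp2 : p ≠ 2) (hpM' : ¬ p ∣ M') (hM' : 4 ∣ M')
    (hprov : HubNodalProvider p M') :
    ∀ ℓ : Nat.Primes, ¬ (ℓ : ℕ) ∣ M' * p →
      hubB p M' hpM' hM' ℓ (hubOne p M' hpM' hM') =
        ((ℓ : ℕ) + 1 : ℤ) • hubOne p M' hpM' hM' :=
  hubB_one (hubHDE_of_provider hp2 hpM' hM' hprov)

omit [FiniteDimensional ℚ K] in
/-- **`ρ_T`** at the hub from the supplier of `hN` alone. -/
theorem hubRho_T_of_provider (hp2 : p ≠ 2) (hpM' : ¬ p ∣ M') (hM' : 4 ∣ M')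
    (hprov : HubNodalProvider p M') :
    ∀ ℓ : Nat.Primes, ¬ (ℓ : ℕ) ∣ M' * p → ∀ (x : JZero (M' * p))
      (hx : x ∈ Pic0.torsion Kbar (FF (M' * p)) p)
      (hx' : heckeOperatorBar (M' * p) ℓ x ∈ Pic0.torsion Kbar (FF (M' * p)) p),
      hubRho p M' hpM' hM' ⟨_, hx'⟩ = hubB p M' hpM' hM' ℓ (hubRho p M' hpM' hM' ⟨x, hx⟩) :=
  hubRho_T (hubHDE_of_provider hp2 hpM' hM' hprov)

omit [FiniteDimensional ℚ K] in
/-- **the `R`-block of the hub** from the supplier of `hN` alone. -/
def hubRBlock_of_provider (hp2 : p ≠ 2) (hpM' : ¬ p ∣ M') (hM' : 4 ∣ M')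
    (hprov : HubNodalProvider p M') : RBlock.{0} p (M' * p) :=
  hubRBlock p M' hpM' hM' (hubHDE_of_provider hp2 hpM' hM' hprov)

end HubHDE

end Fermat.Agent.T1B.Brandt57
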